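import Fermat.Agent.Lower.Levels.Degen
import Fermat.Agent.Ihara.Operators

/-!
# The maps between the levels `N` and `N q`

`iotaQ` is the sum of the two degeneracy maps and `piQ` the pair of corestrictions.  They are
compared with the maps on homomorphisms (`h1Triv_degOne`, `h1Triv_cor`), satisfy
`π ∘ ι = [[q + 1, T_q], [T_q, q + 1]]` (`piQ_iotaQ`), `U_q ^ 2 = 1` on the kernel of `π`
(`hecke_sq_of_piQ_eq_zero`), and respect the family and its parts.
-/

set_option autoImplicit false
set_option linter.unusedSectionVars false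

noncomputable section

open CongruenceSubgroup
open scoped MatrixGroups

namespace FLTAgent.Lower.Lift.HopQ

open FLTAgent.Lower.Levels
open FLTAgent.HeckeH (M2 matOf matOf_mul mkGamma0 matOf_mkGamma0)

variable {N q : ℕ} [NeZero N] [Fact q.Prime] (hqN : ¬ q ∣ N)

/-! ### Comparison with homomorphisms -/

/-- The element relating the two Atkin-Lehner matrices at `q`. -/
def wTwist : Gamma0 (N * q) :=
  mkGamma0 ((q : ℤ) * Nat.gcdA q N * Nat.gcdA q N + Nat.gcdB q N * N)
    (Nat.gcdB q N * (Nat.gcdA q N - 1))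
    (((N * q : ℕ) : ℤ) * (Nat.gcdA q N - 1)) ((N : ℤ) * Nat.gcdB q N + q)
    (by
      push_cast
      linear_combination ((q : ℤ) * Nat.gcdA q N + Nat.gcdB q N * N + 1) *
        bezout (Fact.out : q.Prime) hqN)
    (dvd_mul_right _ _)

theorem atT_eq : Ihara.atT N q = Nat.gcdA q N := rfl

theorem atY_eq : Ihara.atY N q = -Nat.gcdB q N := rfl

theorem wMatV_eq : wMatV N q = matOf (wTwist hqN) * Ihara.wMatQ hqN := by
  have hb := bezout (Fact.out : q.Prime) hqN
  rw [Ihara.wMatQ, Ihara.omegaL, wTwist, matOf_mkGamma0, matOf_mkGamma0, atT_eq, atY_eq,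
    Degen.dMat, wMatV]
  ext i j
  fin_cases i <;> fin_cases j <;> simp [Matrix.mul_apply, Fin.sum_univ_two]
  · linear_combination (-(q : ℤ) * Nat.gcdA q N) * hb
  · linear_combination (Nat.gcdB q N : ℤ) * hb
  · linear_combination (-(N : ℤ) * q) * hb
  · linear_combination (-(q : ℤ)) * hb

section Triv

variable {R : Type} [CommRing R] {A : Type} [AddCommGroup A] [Module R A]

theorem h1Triv_degOne (x : H1 R A (tchi N R)) :
    h1Triv (N * q) R A ((degOne N R q).map A x) =
      (h1Triv N R A x).comp (MonoidHom.toAdditive (Ihara.inclHom N q)) := by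
  induction x using Submodule.Quotient.induction_on with
  | _ c =>
    refine AddMonoidHom.ext fun γ => ?_
    obtain ⟨γ, rfl⟩ := Additive.ofMul.surjective γ
    rw [Sys.map_mk, h1Triv_mk, Sys.coe_op, Fintype.sum_unique]
    show (1 : R) • _ = _
    rw [one_smul, show (default : Unit) = () from rfl, degOne_coc γ,
      show Subgroup.inclusion (Period.gamma0_le_gamma0_of_dvd (dvd_mul_right N q)) γ =
        Ihara.inclHom N q γ from Subtype.ext (Ihara.coe_inclHom N q γ).symm]
    rfl

theorem h1Triv_degV (x : H1 R A (tchi N R)) :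
    h1Triv (N * q) R A ((degV N R (Fact.out : q.Prime)).map A x) =
      (h1Triv N R A x).comp (MonoidHom.toAdditive (Ihara.iqHom N q)) := by
  induction x using Submodule.Quotient.induction_on with
  | _ c =>
    refine AddMonoidHom.ext fun γ => ?_
    obtain ⟨γ, rfl⟩ := Additive.ofMul.surjective γ
    rw [Sys.map_mk, h1Triv_mk, Sys.coe_op, Fintype.sum_unique]
    show (1 : R) • _ = _
    rw [one_smul, ((degV N R (Fact.out : q.Prime)).eq_of_mul (inj_degV _) (i := default)
      (j := ()) (δ := Ihara.iqHom N q γ) (Ihara.dMat_mul_iqHom N q γ)).1]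
    rfl

theorem h1Triv_w (z : H1 R A (tchi (N * q) R)) :
    h1Triv (N * q) R A ((wSys R (Fact.out : q.Prime) hqN).map A z) =
      (h1Triv (N * q) R A z).comp (MonoidHom.toAdditive (Ihara.theta hqN)) := by
  induction z using Submodule.Quotient.induction_on with
  | _ c =>
    refine AddMonoidHom.ext fun γ => ?_
    obtain ⟨γ, rfl⟩ := Additive.ofMul.surjective γ
    rw [Sys.map_mk, h1Triv_mk, Sys.coe_op, Fintype.sum_unique]
    show (1 : R) • _ = _
    rw [one_smul, ((wSys R (Fact.out : q.Prime) hqN).eq_of_mul (inj_wSys _ hqN) (i := default)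
      (j := ()) (δ := wTwist hqN * Ihara.theta hqN γ * (wTwist hqN)⁻¹) (by
        show wMatV N q * matOf γ = matOf _ * wMatV N q
        rw [wMatV_eq hqN, Matrix.mul_assoc, Ihara.wMatQ_mul, ← Matrix.mul_assoc,
          ← Matrix.mul_assoc, ← matOf_mul, ← matOf_mul, inv_mul_cancel_right])).1,
      Z1_tchi_mul, Z1_tchi_mul, Z1_tchi_inv, add_neg_cancel_comm]
    rfl

/-- The cosets of `Γ₀(N q)` in `Γ₀(N)`, by the representatives of `corSys`. -/
def corEquiv : Option (Fin q) ≃ Gamma0 N ⧸ Degen.subG0 N (N * q) :=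
  Equiv.ofBijective (fun i => (((corRep (Fact.out : q.Prime) hqN i)⁻¹ : Gamma0 N) :
    Gamma0 N ⧸ Degen.subG0 N (N * q))) ⟨fun i j h => corRep_inj _ hqN (by
      rw [QuotientGroup.eq, inv_inv] at h
      exact h), fun x => by
    induction x using QuotientGroup.induction_on with
    | H g =>
      obtain ⟨i, hi⟩ := exists_corRep (Fact.out : q.Prime) hqN g⁻¹
      exact ⟨i, ((QuotientGroup.eq (s := Degen.subG0 N (N * q))).mpr hi).symm⟩⟩

theorem corEquiv_apply (i : Option (Fin q)) :
    corEquiv hqN i = ((corRep (Fact.out : q.Prime) hqN i)⁻¹ : Gamma0 N) := rfl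

theorem h1Triv_cor (z : H1 R A (tchi (N * q) R)) :
    h1Triv N R A ((corSys R (Fact.out : q.Prime) hqN).map A z) =
      Degen.corFun (h1Triv (N * q) R A z) := by
  classical
  have := Fintype.ofEquiv _ (corEquiv (N := N) hqN)
  induction z using Submodule.Quotient.induction_on with
  | _ c =>
    refine AddMonoidHom.ext fun γ => ?_
    obtain ⟨γ, rfl⟩ := Additive.ofMul.surjective γ
    set S := corSys R (Fact.out : q.Prime) hqN
    set C := corEquiv (N := N) hqN with hC
    rw [Sys.map_mk, h1Triv_mk, Sys.coe_op, Degen.corFun_apply _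
      (fun x => (corRep (Fact.out : q.Prime) hqN (C.symm x))⁻¹)
      (fun x => by rw [← corEquiv_apply hqN]; exact C.apply_symm_apply x) γ]
    refine Fintype.sum_equiv C _ _ fun i => ?_
    show (1 : R) • _ = _
    rw [one_smul, h1Triv_mk]
    refine congrArg _ ((S.eq_of_mul (inj_corSys _ hqN) (j := C.symm (γ⁻¹ • C i)) ?_).1)
    show matOf (corRep _ hqN i) * matOf γ = matOf ((corRep _ hqN (C.symm (C i)))⁻¹⁻¹ *
      (γ * (corRep _ hqN (C.symm (γ⁻¹ • C i)))⁻¹)) * matOf (corRep _ hqN _)
    rw [C.symm_apply_apply, inv_inv, ← matOf_mul, ← matOf_mul, mul_assoc, inv_mul_cancel_right]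

end Triv

/-! ### The two maps -/

section Maps

variable (O : Type) [CommRing O]

/-- Both degeneracy maps. -/
def iotaQ (N q : ℕ) [Fact q.Prime] :
    H1 O O (tchi N O) × H1 O O (tchi N O) →ₗ[O] H1 O O (tchi (N * q) O) :=
  ((degOne N O q).map O).coprod ((degV N O (Fact.out : q.Prime)).map O)

/-- Corestriction, and corestriction after the Atkin-Lehner operator. -/
def piQ : H1 O O (tchi (N * q) O) →ₗ[O] H1 O O (tchi N O) × H1 O O (tchi N O) :=
  ((corSys O (Fact.out : q.Prime) hqN).map O).prod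
    (((corSys O (Fact.out : q.Prime) hqN).map O).comp
      ((wSys O (Fact.out : q.Prime) hqN).map O))

variable {O}

theorem iotaQ_apply (x y : H1 O O (tchi N O)) :
    iotaQ O N q (x, y) = (degOne N O q).map O x + (degV N O (Fact.out : q.Prime)).map O y := rfl

theorem piQ_apply (z : H1 O O (tchi (N * q) O)) :
    piQ hqN O z = ((corSys O (Fact.out : q.Prime) hqN).map O z,
      (corSys O (Fact.out : q.Prime) hqN).map O ((wSys O (Fact.out : q.Prime) hqN).map O z)) := rfl

theorem w_degOne (x : H1 O O (tchi N O)) :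
    (wSys O (Fact.out : q.Prime) hqN).map O ((degOne N O q).map O x) =
      (degV N O (Fact.out : q.Prime)).map O x := by
  refine (h1Triv (N * q) O O).injective (AddMonoidHom.ext fun γ => ?_)
  obtain ⟨γ, rfl⟩ := Additive.ofMul.surjective γ
  rw [h1Triv_w, h1Triv_degOne, h1Triv_degV]
  show h1Triv N O O x (Additive.ofMul (Ihara.inclHom N q (Ihara.theta hqN γ))) = _
  rw [Ihara.inclHom_theta, ofMul_mul, ofMul_mul, ofMul_inv, map_add, map_add, map_neg,
    add_neg_cancel_comm]
  rfl

theorem w_degV (x : H1 O O (tchi N O)) :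
    (wSys O (Fact.out : q.Prime) hqN).map O ((degV N O (Fact.out : q.Prime)).map O x) =
      (degOne N O q).map O x := by
  rw [← w_degOne hqN, w_w]

/-- `π ∘ ι = [[q + 1, T_q], [T_q, q + 1]]`. -/
theorem piQ_iotaQ (x y : H1 O O (tchi N O)) :
    piQ hqN O (iotaQ O N q (x, y)) =
      (((q : O) + 1) • x + heckeOp (Fact.out : q.Prime) 1 O y,
        heckeOp (Fact.out : q.Prime) 1 O x + ((q : O) + 1) • y) := by
  rw [piQ_apply, iotaQ_apply, map_add, map_add, map_add, w_degOne, w_degV, cor_degOne, cor_degV,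
    cor_degV, cor_degOne]

/-- `U_q ^ 2 = 1` on the kernel of `π`. -/
theorem hecke_sq_of_piQ_eq_zero {z : H1 O O (tchi (N * q) O)} (hz : piQ hqN O z = 0) :
    heckeOp (Fact.out : q.Prime) 1 O (heckeOp (Fact.out : q.Prime) 1 O z) = z := by
  rw [piQ_apply, Prod.mk_eq_zero] at hz
  have h1 := add_hecke_w (R := O) (A := O) (Fact.out : q.Prime) hqN z
  have h2 := add_hecke_w (R := O) (A := O) (Fact.out : q.Prime) hqN
    ((wSys O (Fact.out : q.Prime) hqN).map O z)
  rw [hz.1, map_zero] at h1
  rw [w_w, hz.2, map_zero] at h2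
  have h3 : heckeOp (Fact.out : q.Prime) 1 O z = -(wSys O (Fact.out : q.Prime) hqN).map O z :=
    eq_neg_of_add_eq_zero_right h2
  rw [h3, map_neg, neg_eq_iff_add_eq_zero, add_comm, h1]

theorem w_hecke {ℓ : ℕ} (hℓ : ℓ.Prime) (hne : ℓ ≠ q) (z : H1 O O (tchi (N * q) O)) :
    (wSys O (Fact.out : q.Prime) hqN).map O (heckeOp hℓ 1 O z) =
      heckeOp hℓ 1 O ((wSys O (Fact.out : q.Prime) hqN).map O z) := by
  have : NeZero ℓ := ⟨hℓ.ne_zero⟩
  choose ε e hε using Ihara.exists_thetaBeta hqN hℓ hne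
  have hinj : Function.Injective e := by
    intro i i' h
    obtain ⟨x, hx⟩ := (Ihara.theta_bijective hqN).2 (ε i * (ε i')⁻¹)
    refine (HeckeH.heckeReps (N * q) hℓ).inj x i i' ?_
    have h1 : Ihara.wMatQ hqN * HeckeH.heckeBeta i =
        Ihara.wMatQ hqN * (matOf x * HeckeH.heckeBeta i') := by
      rw [← Matrix.mul_assoc, Ihara.wMatQ_mul, hx, Matrix.mul_assoc, hε i', hε i, h,
        ← Matrix.mul_assoc, ← Matrix.mul_assoc, ← matOf_mul, inv_mul_cancel_right]
    have h2 := congrArg (fun y : M2 => (Ihara.wMatQ hqN).adjugate * y) h1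
    simp only [← Matrix.mul_assoc, Matrix.adjugate_mul, Matrix.smul_mul, Matrix.one_mul] at h2
    exact smul_right_injective M2
      (by rw [Ihara.det_wMatQ]; exact_mod_cast NeZero.ne q) h2
  let e' : HeckeH.heckeIdx (N * q) ℓ ≃ HeckeH.heckeIdx (N * q) ℓ :=
    Equiv.ofBijective e ⟨hinj, Finite.surjective_of_injective hinj⟩
  refine (h1Triv (N * q) O O).injective (AddMonoidHom.ext fun γ => ?_)
  obtain ⟨γ, rfl⟩ := Additive.ofMul.surjective γ
  rw [h1Triv_w, h1Triv_heckeOp, h1Triv_heckeOp, h1Triv_w]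
  exact Degen.transfer_comp_conj (HeckeH.heckeReps (N * q) hℓ) (HeckeH.heckeReps (N * q) hℓ)
    (Ihara.wMatQ hqN) (by rw [Ihara.det_wMatQ]; exact_mod_cast NeZero.ne q)
    (Ihara.theta hqN) (Ihara.wMatQ_mul hqN) e' ε hε O (h1Triv (N * q) O O z) γ

variable [CharZero O] [IsDomain O]

include hqN in
theorem degOne_injective : Function.Injective ((degOne N O q).map O) := by
  refine (injective_iff_map_eq_zero _).mpr fun x hx => ?_
  have h := congrArg ((corSys O (Fact.out : q.Prime) hqN).map O) hx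
  rw [cor_degOne, map_zero] at h
  refine (h1Triv N O O).injective (AddMonoidHom.ext fun γ => ?_)
  have h' := DFunLike.congr_fun (congrArg (h1Triv N O O) h) γ
  rw [map_smul, map_zero] at h'
  simp only [AddMonoidHom.coe_smul, Pi.smul_apply, smul_eq_mul, AddMonoidHom.zero_apply,
    mul_eq_zero] at h'
  rw [h'.resolve_left (by exact_mod_cast Nat.succ_ne_zero q), map_zero, AddMonoidHom.zero_apply]

theorem cor_hecke {ℓ : ℕ} (hℓ : ℓ.Prime) (hne : ℓ ≠ q) (z : H1 O O (tchi (N * q) O)) :
    (corSys O (Fact.out : q.Prime) hqN).map O (heckeOp hℓ 1 O z) =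
      heckeOp hℓ 1 O ((corSys O (Fact.out : q.Prime) hqN).map O z) := by
  refine degOne_injective hqN ?_
  rw [degOne_hecke hℓ (Fact.out : q.Prime) hne, ← add_hecke_w, ← add_hecke_w, w_hecke hqN hℓ hne,
    map_add, heckeOp_comm]

variable {ι : Type} (pr : ι → Nat.Primes) (hpr : ∀ i, (pr i : ℕ) ≠ q)

include hpr

theorem degOne_famAct (s : MvPolynomial ι O) (x : H1 O O (tchi N O)) :
    (degOne N O q).map O (famAct 1 pr O s x) = famAct 1 pr O s ((degOne N O q).map O x) := by
  induction s using MvPolynomial.induction_on generalizing x with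
  | C a => simp [Module.algebraMap_end_apply]
  | add s t hs ht => rw [map_add, LinearMap.add_apply, map_add, hs, ht, map_add, LinearMap.add_apply]
  | mul_X s i hs =>
    rw [map_mul, Module.End.mul_apply, hs, famAct_X, degOne_hecke (pr i).2 Fact.out (hpr i),
      map_mul, Module.End.mul_apply, famAct_X]

theorem degV_famAct (s : MvPolynomial ι O) (x : H1 O O (tchi N O)) :
    (degV N O (Fact.out : q.Prime)).map O (famAct 1 pr O s x) =
      famAct 1 pr O s ((degV N O (Fact.out : q.Prime)).map O x) := by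
  induction s using MvPolynomial.induction_on generalizing x with
  | C a => simp [Module.algebraMap_end_apply]
  | add s t hs ht => rw [map_add, LinearMap.add_apply, map_add, hs, ht, map_add, LinearMap.add_apply]
  | mul_X s i hs =>
    rw [map_mul, Module.End.mul_apply, hs, famAct_X, degV_hecke (pr i).2 Fact.out (hpr i),
      map_mul, Module.End.mul_apply, famAct_X]

theorem cor_famAct (s : MvPolynomial ι O) (z : H1 O O (tchi (N * q) O)) :
    (corSys O (Fact.out : q.Prime) hqN).map O (famAct 1 pr O s z) =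
      famAct 1 pr O s ((corSys O (Fact.out : q.Prime) hqN).map O z) := by
  induction s using MvPolynomial.induction_on generalizing z with
  | C a => simp [Module.algebraMap_end_apply]
  | add s t hs ht => rw [map_add, LinearMap.add_apply, map_add, hs, ht, map_add, LinearMap.add_apply]
  | mul_X s i hs =>
    rw [map_mul, Module.End.mul_apply, hs, famAct_X, cor_hecke hqN (pr i).2 (hpr i),
      map_mul, Module.End.mul_apply, famAct_X]

theorem w_famAct (s : MvPolynomial ι O) (z : H1 O O (tchi (N * q) O)) :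
    (wSys O (Fact.out : q.Prime) hqN).map O (famAct 1 pr O s z) =
      famAct 1 pr O s ((wSys O (Fact.out : q.Prime) hqN).map O z) := by
  induction s using MvPolynomial.induction_on generalizing z with
  | C a => simp [Module.algebraMap_end_apply]
  | add s t hs ht => simp only [map_add, LinearMap.add_apply, hs, ht]
  | mul_X s i hs =>
    simp only [map_mul, Module.End.mul_apply, hs, famAct_X, w_hecke hqN (pr i).2 (hpr i)]

theorem iotaQ_famAct (s : MvPolynomial ι O) (x y : H1 O O (tchi N O)) :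
    iotaQ O N q (famAct 1 pr O s x, famAct 1 pr O s y) =
      famAct 1 pr O s (iotaQ O N q (x, y)) := by
  rw [iotaQ_apply, iotaQ_apply, map_add, degOne_famAct pr hpr, degV_famAct pr hpr]

theorem piQ_famAct (s : MvPolynomial ι O) (z : H1 O O (tchi (N * q) O)) :
    piQ hqN O (famAct 1 pr O s z) =
      (famAct 1 pr O s (piQ hqN O z).1, famAct 1 pr O s (piQ hqN O z).2) := by
  rw [piQ_apply, piQ_apply, cor_famAct hqN pr hpr, w_famAct hqN pr hpr, cor_famAct hqN pr hpr]

variable {k : Type} [Field k] (σ : O →+* k) (θ : ι → k)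

theorem iotaQ_mem {x y : H1 O O (tchi N O)} (hx : x ∈ h1Part 1 pr σ θ O)
    (hy : y ∈ h1Part 1 pr σ θ O) : iotaQ O N q (x, y) ∈ h1Part 1 pr σ θ O := by
  rw [iotaQ_apply]
  refine add_mem ?_ ?_
  · exact map_mem_part (σ := RingHom.id O) _
      (fun s z => by rw [MvPolynomial.map_id]; exact degOne_famAct pr hpr s z)
      (comap_eigIdeal σ θ (RingHom.id O)) hx
  · exact map_mem_part (σ := RingHom.id O) _
      (fun s z => by rw [MvPolynomial.map_id]; exact degV_famAct pr hpr s z)
      (comap_eigIdeal σ θ (RingHom.id O)) hy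

theorem w_mem {z : H1 O O (tchi (N * q) O)} (hz : z ∈ h1Part 1 pr σ θ O) :
    (wSys O (Fact.out : q.Prime) hqN).map O z ∈ h1Part 1 pr σ θ O :=
  map_mem_part (σ := RingHom.id O) _
    (fun s x => by rw [MvPolynomial.map_id]; exact w_famAct hqN pr hpr s x)
    (comap_eigIdeal σ θ (RingHom.id O)) hz

theorem cor_mem {z : H1 O O (tchi (N * q) O)} (hz : z ∈ h1Part 1 pr σ θ O) :
    (corSys O (Fact.out : q.Prime) hqN).map O z ∈ h1Part 1 pr σ θ O :=
  map_mem_part (σ := RingHom.id O) _
    (fun s x => by rw [MvPolynomial.map_id]; exact cor_famAct hqN pr hpr s x)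
    (comap_eigIdeal σ θ (RingHom.id O)) hz

theorem piQ_mem {z : H1 O O (tchi (N * q) O)} (hz : z ∈ h1Part 1 pr σ θ O) :
    (piQ hqN O z).1 ∈ h1Part 1 pr σ θ O ∧ (piQ hqN O z).2 ∈ h1Part 1 pr σ θ O :=
  ⟨cor_mem hqN pr hpr σ θ hz, cor_mem hqN pr hpr σ θ (w_mem hqN pr hpr σ θ hz)⟩

end Maps

end FLTAgent.Lower.Lift.HopQ
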