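import Fermat.Agent.Lower.Lift.HopQ.Ihara
import Fermat.Agent.Lower.Levels.Frame

/-!
# The degeneracy maps at `q ≠ p` in frames

`nonempty_hopData`: in frames of the parts at levels `N` and `N q` the maps `ι` and `π` are
matrices with `π` split surjective, `ι` split injective, a split kernel of `π` stable under the
family, `U_q ^ 2 = 1` on it, and `π ι = [[q + 1, T_q], [T_q, q + 1]]` of nonzero determinant.
-/

set_option autoImplicit false
set_option linter.unusedSectionVars false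
set_option linter.style.haveILetI false

noncomputable section

open CongruenceSubgroup
open scoped MatrixGroups Matrix

namespace FLTAgent.Lower.Lift.HopQ

open FLTAgent.Lower.Levels
open IsLocalRing (maximalIdeal)

variable {N q : ℕ} [NeZero N] [Fact q.Prime]
variable {O : Type} [CommRing O] {k : Type} [Field k] {I : Type} (pr : I → Nat.Primes)
  (σ : O →+* k) (θ : I → k)

/-- Every Hecke operator commutes with the family. -/
theorem heckeOp_famAct {L ℓ : ℕ} (hℓ : ℓ.Prime) (s : MvPolynomial I O) (x : H1 O O (tchi L O)) :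
    heckeOp hℓ 1 O (famAct 1 pr O s x) = famAct 1 pr O s (heckeOp hℓ 1 O x) := by
  induction s using MvPolynomial.induction_on generalizing x with
  | C a => simp [Module.algebraMap_end_apply]
  | add s t hs ht => simp only [map_add, LinearMap.add_apply, hs, ht]
  | mul_X s i hs =>
    simp only [map_mul, Module.End.mul_apply, hs, famAct_X, heckeOp_comm hℓ (pr i).2]

theorem heckeOp_mem {L ℓ : ℕ} (hℓ : ℓ.Prime) {x : H1 O O (tchi L O)}
    (hx : x ∈ h1Part 1 pr σ θ O) : heckeOp hℓ 1 O x ∈ h1Part 1 pr σ θ O :=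
  map_mem_part (σ := RingHom.id O) (heckeOp hℓ 1 O)
    (fun s z => by rw [MvPolynomial.map_id]; exact heckeOp_famAct pr hℓ s z)
    (comap_eigIdeal σ θ (RingHom.id O)) hx

/-- The entries of `π ∘ ι`. -/
def eMat {d : ℕ} (c : O) (T : Matrix (Fin d) (Fin d) O) :
    Matrix (Fin 2) (Fin 2) (Matrix (Fin d) (Fin d) O) :=
  !![c • 1, T; T, c • 1]

variable {d₀ d₁ : ℕ} (hqN : ¬ q ∣ N)
  (F₀ : Frame (1 : (ZMod N)ˣ →* Oˣ) pr σ θ d₀)
  (F₁ : Frame (1 : (ZMod (N * q))ˣ →* Oˣ) pr σ θ d₁)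

/-- The data of the hop at `q` in frames. -/
structure HopData : Type where
  dNew : ℕ
  ι : Matrix (Fin d₁) (Fin d₀ × Fin 2) O
  π : Matrix (Fin d₀ × Fin 2) (Fin d₁) O
  j : Matrix (Fin d₁) (Fin dNew) O
  Tq : Matrix (Fin d₀) (Fin d₀) O
  Uq : Matrix (Fin d₁) (Fin d₁) O
  newMat : MvPolynomial I O →ₐ[O] Matrix (Fin dNew) (Fin dNew) O
  combo_ι : ∀ c : Fin d₀ × Fin 2 → O, F₁.combo (ι *ᵥ c) =
    iotaQ O N q (F₀.combo fun i => c (i, 0), F₀.combo fun i => c (i, 1))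
  combo_π : ∀ c : Fin d₁ → O, piQ hqN O (F₁.combo c) =
    (F₀.combo fun i => (π *ᵥ c) (i, 0), F₀.combo fun i => (π *ᵥ c) (i, 1))
  combo_Tq : ∀ c, F₀.combo (Tq *ᵥ c) = heckeOp (Fact.out : q.Prime) 1 O (F₀.combo c)
  combo_Uq : ∀ c, F₁.combo (Uq *ᵥ c) = heckeOp (Fact.out : q.Prime) 1 O (F₁.combo c)
  π_surjective : ∃ s : Matrix (Fin d₁) (Fin d₀ × Fin 2) O, π * s = 1
  ι_split : ∃ s : Matrix (Fin d₀ × Fin 2) (Fin d₁) O, s * ι = 1
  j_split : ∃ s : Matrix (Fin dNew) (Fin d₁) O, s * j = 1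
  π_j : π * j = 0
  exact : ∀ x : Fin d₁ → O, π *ᵥ x = 0 → ∃ y, j *ᵥ y = x
  ι_comm : ∀ s, F₁.mat s * ι = ι * Matrix.blockDiagonal fun _ : Fin 2 => F₀.mat s
  π_comm : ∀ s, (Matrix.blockDiagonal fun _ : Fin 2 => F₀.mat s) * π = π * F₁.mat s
  j_comm : ∀ s, F₁.mat s * j = j * newMat s
  Tq_comm : ∀ s, Commute Tq (F₀.mat s)
  Uq_comm : ∀ s, Commute Uq (F₁.mat s)
  Uq_sq : Uq * Uq * j = j
  π_ι : π * ι = Matrix.of fun a b => eMat ((q : O) + 1) Tq a.2 b.2 a.1 b.1
  π_ι_ne_zero : (π * ι).det ≠ 0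

omit [NeZero N] in
theorem blockDiagonal_mulVec {d : ℕ} (M : Matrix (Fin d) (Fin d) O) (c : Fin d × Fin 2 → O)
    (b : Fin 2) :
    (fun i => ((Matrix.blockDiagonal fun _ : Fin 2 => M) *ᵥ c) (i, b)) =
      M *ᵥ fun i => c (i, b) := by
  funext i
  simp [Matrix.mulVec, dotProduct, Fintype.sum_prod_type, Matrix.blockDiagonal_apply]

theorem eq_of_combo_pair {M M' : Matrix (Fin d₀ × Fin 2) (Fin d₁) O}
    (h : ∀ c b, F₀.combo (fun i => (M *ᵥ c) (i, b)) = F₀.combo fun i => (M' *ᵥ c) (i, b)) :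
    M = M' :=
  Matrix.ext_iff_mulVec.mpr fun c => funext fun a => congrFun (F₀.inj (h c a.2)) a.1

variable [IsDomain O] [CharZero O] [IsLocalRing O] [IsNoetherianRing O] [IsPrincipalIdealRing O]
  [IsAdicComplete (maximalIdeal O) O] [Module.Finite O (H1 O O (tchi N O))]
  [Module.Finite O (H1 O O (tchi (N * q) O))] {pr σ θ}
  {p : ℕ} [Fact p.Prime]

/-- **The base level of the hop at `q`.** -/
theorem nonempty_hopData (hσ : Function.Surjective σ) (hpr : ∀ i, (pr i : ℕ) ≠ q)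
    (hp : (p : k) = 0) {i₀ : I} (h : EisAway N q pr θ i₀) :
    Nonempty (HopData pr σ θ hqN F₀ F₁) := by
  classical
  have hker : RingHom.ker σ = maximalIdeal O :=
    IsLocalRing.eq_maximalIdeal (RingHom.ker_isMaximal_of_surjective σ hσ)
  obtain ⟨ϖ, hϖ⟩ : ∃ ϖ, RingHom.ker σ = Ideal.span {ϖ} :=
    (IsPrincipalIdealRing.principal (RingHom.ker σ)).principal
  have hϖ0 : ϖ ≠ 0 := fun h0 => (Fact.out : p.Prime).ne_zero (by
    have hm : (p : O) ∈ RingHom.ker σ := by rwa [RingHom.mem_ker, map_natCast]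
    rw [hϖ, h0, Ideal.span_singleton_zero, Ideal.mem_bot] at hm
    exact_mod_cast hm)
  -- the matrices
  have hP : ∀ c, (piQ hqN O (F₁.combo c)).1 ∈ h1Part 1 pr σ θ O ∧
      (piQ hqN O (F₁.combo c)).2 ∈ h1Part 1 pr σ θ O :=
    fun c => piQ_mem hqN pr hpr σ θ (F₁.combo_mem c)
  let pairP : (Fin d₁ → O) → Fin 2 → Fin d₀ → O := fun c =>
    ![F₀.coord _ (hP c).1, F₀.coord _ (hP c).2]
  let π : Matrix (Fin d₀ × Fin 2) (Fin d₁) O :=
    Matrix.of fun a j => pairP (Pi.single j 1) a.2 a.1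
  have hπ0 : ∀ c, F₀.combo (fun i => (π *ᵥ c) (i, 0)) = (piQ hqN O (F₁.combo c)).1 := by
    refine LinearMap.congr_fun (f := F₀.combo ∘ₗ LinearMap.pi (fun i => LinearMap.proj (i, 0)) ∘ₗ
      π.mulVecLin) (g := LinearMap.fst O _ _ ∘ₗ piQ hqN O ∘ₗ F₁.combo)
      (LinearMap.pi_ext' fun j => LinearMap.ext_ring ?_)
    show F₀.combo (fun i => (π *ᵥ Pi.single j 1) (i, 0)) = _
    rw [Matrix.mulVec_single_one]
    exact F₀.combo_coord _ (hP (Pi.single j 1)).1
  have hπ1 : ∀ c, F₀.combo (fun i => (π *ᵥ c) (i, 1)) = (piQ hqN O (F₁.combo c)).2 := by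
    refine LinearMap.congr_fun (f := F₀.combo ∘ₗ LinearMap.pi (fun i => LinearMap.proj (i, 1)) ∘ₗ
      π.mulVecLin) (g := LinearMap.snd O _ _ ∘ₗ piQ hqN O ∘ₗ F₁.combo)
      (LinearMap.pi_ext' fun j => LinearMap.ext_ring ?_)
    show F₀.combo (fun i => (π *ᵥ Pi.single j 1) (i, 1)) = _
    rw [Matrix.mulVec_single_one]
    exact F₀.combo_coord _ (hP (Pi.single j 1)).2
  have hπ : ∀ c, piQ hqN O (F₁.combo c) =
      (F₀.combo fun i => (π *ᵥ c) (i, 0), F₀.combo fun i => (π *ᵥ c) (i, 1)) := fun c => by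
    rw [hπ0, hπ1]
  have hI : ∀ c : Fin d₀ × Fin 2 → O,
      iotaQ O N q (F₀.combo fun i => c (i, 0), F₀.combo fun i => c (i, 1)) ∈
        h1Part 1 pr σ θ O :=
    fun c => iotaQ_mem pr hpr σ θ (F₀.combo_mem _) (F₀.combo_mem _)
  let ι : Matrix (Fin d₁) (Fin d₀ × Fin 2) O :=
    Matrix.of fun i b => F₁.coord _ (hI (Pi.single b 1)) i
  have hι : ∀ c : Fin d₀ × Fin 2 → O, F₁.combo (ι *ᵥ c) =
      iotaQ O N q (F₀.combo fun i => c (i, 0), F₀.combo fun i => c (i, 1)) := by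
    refine LinearMap.congr_fun (f := F₁.combo ∘ₗ ι.mulVecLin)
      (g := iotaQ O N q ∘ₗ LinearMap.prod (F₀.combo ∘ₗ LinearMap.pi fun i => LinearMap.proj (i, 0))
        (F₀.combo ∘ₗ LinearMap.pi fun i => LinearMap.proj (i, 1)))
      (LinearMap.pi_ext' fun b => LinearMap.ext_ring ?_)
    show F₁.combo (ι *ᵥ Pi.single b 1) = _
    rw [Matrix.mulVec_single_one]
    exact F₁.combo_coord _ (hI (Pi.single b 1))
  let opMat : ∀ {L d : ℕ} (F : Frame (1 : (ZMod L)ˣ →* Oˣ) pr σ θ d),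
      Matrix (Fin d) (Fin d) O := fun {L d} F =>
    Matrix.of fun i j => F.coord _ (heckeOp_mem pr σ θ (Fact.out : q.Prime) (F.mem j)) i
  have hop : ∀ {L d : ℕ} (F : Frame (1 : (ZMod L)ˣ →* Oˣ) pr σ θ d) (c : Fin d → O),
      F.combo (opMat F *ᵥ c) = heckeOp (Fact.out : q.Prime) 1 O (F.combo c) := by
    intro L d F
    refine LinearMap.congr_fun (f := F.combo ∘ₗ (opMat F).mulVecLin)
      (g := heckeOp (Fact.out : q.Prime) 1 O ∘ₗ F.combo)
      (LinearMap.pi_ext' fun j => LinearMap.ext_ring ?_)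
    show F.combo (opMat F *ᵥ Pi.single j 1) = heckeOp _ 1 O (F.combo (Pi.single j 1))
    rw [Matrix.mulVec_single_one, F.combo_single]
    exact F.combo_coord _ (heckeOp_mem pr σ θ _ (F.mem j))
  have hopc : ∀ {L d : ℕ} (F : Frame (1 : (ZMod L)ˣ →* Oˣ) pr σ θ d) (s : MvPolynomial I O),
      Commute (opMat F) (F.mat s) := fun F s => F.mat_unique fun c => by
    rw [← Matrix.mulVec_mulVec, ← Matrix.mulVec_mulVec, hop, F.combo_mat, F.combo_mat, hop,
      heckeOp_famAct]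
  have hπc : ∀ s, (Matrix.blockDiagonal fun _ : Fin 2 => F₀.mat s) * π = π * F₁.mat s := by
    refine fun s => eq_of_combo_pair pr σ θ F₀ fun c b => ?_
    rw [← Matrix.mulVec_mulVec, ← Matrix.mulVec_mulVec, blockDiagonal_mulVec, F₀.combo_mat]
    have e := hπ (F₁.mat s *ᵥ c)
    rw [F₁.combo_mat, piQ_famAct hqN pr hpr, hπ, Prod.mk.injEq] at e
    fin_cases b
    · exact e.1
    · exact e.2
  have hιc : ∀ s, F₁.mat s * ι = ι * Matrix.blockDiagonal fun _ : Fin 2 => F₀.mat s := by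
    refine fun s => Matrix.ext_iff_mulVec.mpr fun c => F₁.inj ?_
    show F₁.combo _ = F₁.combo _
    rw [← Matrix.mulVec_mulVec, ← Matrix.mulVec_mulVec, F₁.combo_mat, hι, hι, blockDiagonal_mulVec,
      blockDiagonal_mulVec, F₀.combo_mat, F₀.combo_mat, iotaQ_famAct pr hpr]
  -- `π` is onto
  have hπs : ∀ y : Fin d₀ × Fin 2 → O, ∃ c, π *ᵥ c = y := by
    intro y
    obtain ⟨z, hz, hzy⟩ := piQ_surjective pr hσ hpr hp hqN h
      (F₀.combo_mem fun i => y (i, 0)) (F₀.combo_mem fun i => y (i, 1))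
    obtain ⟨c, rfl⟩ := F₁.span z hz
    rw [hπ, Prod.mk.injEq] at hzy
    refine ⟨c, funext fun a => ?_⟩
    obtain ⟨i, b⟩ := a
    fin_cases b
    · exact congrFun (F₀.inj hzy.1) i
    · exact congrFun (F₀.inj hzy.2) i
  choose sec hsec using hπs
  let s : Matrix (Fin d₁) (Fin d₀ × Fin 2) O := Matrix.of fun i b => sec (Pi.single b 1) i
  have hπs : π * s = 1 := by
    refine Matrix.ext fun a b => ?_
    calc (π * s) a b = (π *ᵥ sec (Pi.single b 1)) a := rfl
      _ = _ := by rw [hsec, Matrix.one_apply, Pi.single_apply]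
  -- `ι` is split
  have hιk : Function.Injective (Matrix.mulVecLin (ι.map σ)) := by
    rw [← LinearMap.ker_eq_bot, LinearMap.ker_eq_bot']
    intro ck hck
    choose c hc using fun b => hσ (ck b)
    have hmem : ∀ i, ∃ w, (ι *ᵥ c) i = ϖ * w := fun i => by
      refine Ideal.mem_span_singleton.mp (hϖ ▸ RingHom.mem_ker.mpr ?_)
      rw [RingHom.map_mulVec, show σ ∘ c = ck from funext hc]
      exact congrFun hck i
    choose w hw using hmem
    have e := hι c
    rw [show ι *ᵥ c = ϖ • w from funext hw, map_smul] at e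
    obtain ⟨⟨a₀, ha₀, e₀⟩, a₁, ha₁, e₁⟩ := iotaQ_saturated pr hσ hp hqN h hϖ hϖ0
      (F₀.combo_mem fun i => c (i, 0)) (F₀.combo_mem fun i => c (i, 1)) e.symm
    obtain ⟨c₀, rfl⟩ := F₀.span a₀ ha₀
    obtain ⟨c₁, rfl⟩ := F₀.span a₁ ha₁
    rw [← map_smul] at e₀ e₁
    funext a
    obtain ⟨i, b⟩ := a
    rw [← hc, Pi.zero_apply, ← RingHom.mem_ker, hϖ, Ideal.mem_span_singleton]
    fin_cases b
    · exact ⟨c₀ i, congrFun (F₀.inj e₀) i⟩
    · exact ⟨c₁ i, congrFun (F₀.inj e₁) i⟩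
  obtain ⟨g, hg⟩ := LinearMap.exists_leftInverse_of_injective _ (LinearMap.ker_eq_bot.mpr hιk)
  choose t₀ ht₀ using fun (b : Fin d₀ × Fin 2) (i : Fin d₁) => hσ (LinearMap.toMatrix' g b i)
  have htk : ((Matrix.of t₀) * ι).map σ = 1 := by
    rw [Matrix.map_mul, show (Matrix.of t₀).map σ = LinearMap.toMatrix' g from Matrix.ext ht₀,
      ← LinearMap.toMatrix'_toLin' (ι.map σ), ← LinearMap.toMatrix'_comp,
      Matrix.toLin'_apply', hg, LinearMap.toMatrix'_id]
  have hu : IsUnit ((Matrix.of t₀) * ι).det := by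
    refine IsLocalRing.notMem_maximalIdeal.mp fun hm => one_ne_zero (α := k) ?_
    rw [← hker, RingHom.mem_ker, RingHom.map_det, RingHom.mapMatrix_apply, htk,
      Matrix.det_one] at hm
    exact hm
  have hιs : ((Matrix.of t₀) * ι)⁻¹ * Matrix.of t₀ * ι = 1 := by
    rw [Matrix.mul_assoc, Matrix.nonsing_inv_mul _ hu]
  -- the kernel
  obtain ⟨n, bK⟩ := Submodule.basisOfPid (Pi.basisFun O (Fin d₁)) (LinearMap.ker π.mulVecLin)
  let j : Matrix (Fin d₁) (Fin n) O := Matrix.of fun i a => (bK a : Fin d₁ → O) i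
  have hj : ∀ y, j *ᵥ y = ((∑ a, y a • bK a : LinearMap.ker π.mulVecLin) : Fin d₁ → O) := by
    intro y
    ext i
    simp [j, Matrix.mulVec, dotProduct, mul_comm]
  have hπj : π * j = 0 := Matrix.ext_iff_mulVec.mpr fun y => by
    rw [← Matrix.mulVec_mulVec, hj, Matrix.zero_mulVec]
    exact (∑ a, y a • bK a : LinearMap.ker π.mulVecLin).2
  let P : Matrix (Fin d₁) (Fin d₁) O := 1 - s * π
  have hπP : π * P = 0 := by
    rw [Matrix.mul_sub, Matrix.mul_one, ← Matrix.mul_assoc, hπs, Matrix.one_mul, sub_self]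
  have hPmem : ∀ x, P *ᵥ x ∈ LinearMap.ker π.mulVecLin := fun x => by
    rw [LinearMap.mem_ker, Matrix.mulVecLin_apply, Matrix.mulVec_mulVec, hπP, Matrix.zero_mulVec]
  let r : Matrix (Fin n) (Fin d₁) O :=
    Matrix.of fun a i => bK.equivFun ⟨_, hPmem (Pi.single i 1)⟩ a
  have hr : ∀ x, r *ᵥ x = bK.equivFun ⟨_, hPmem x⟩ := by
    refine LinearMap.congr_fun (f := r.mulVecLin)
      (g := bK.equivFun.toLinearMap ∘ₗ LinearMap.codRestrict _ P.mulVecLin hPmem)
      (LinearMap.pi_ext' fun i => LinearMap.ext_ring ?_)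
    show r *ᵥ Pi.single i 1 = _
    rw [Matrix.mulVec_single_one]
    rfl
  have hjr : j * r = P := Matrix.ext_iff_mulVec.mpr fun x => by
    rw [← Matrix.mulVec_mulVec, hr, hj, bK.sum_equivFun]
  have hexact : ∀ x : Fin d₁ → O, π *ᵥ x = 0 → j *ᵥ (r *ᵥ x) = x := fun x hx => by
    rw [Matrix.mulVec_mulVec, hjr, Matrix.sub_mulVec, Matrix.one_mulVec, ← Matrix.mulVec_mulVec,
      hx, Matrix.mulVec_zero, sub_zero]
  have hrj : r * j = 1 := Matrix.ext_iff_mulVec.mpr fun y => by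
    have hy : π *ᵥ (j *ᵥ y) = 0 := by rw [Matrix.mulVec_mulVec, hπj, Matrix.zero_mulVec]
    have hjinj : ∀ u v, j *ᵥ u = j *ᵥ v → u = v := fun u v e => by
      rw [hj, hj] at e
      exact bK.equivFun.symm.injective (Subtype.ext (by
        simpa [Module.Basis.equivFun_symm_apply] using e))
    rw [← Matrix.mulVec_mulVec, Matrix.one_mulVec]
    exact hjinj _ _ (hexact _ hy)
  have hstab : ∀ m, F₁.mat m * j = j * (r * F₁.mat m * j) := fun m => by
    refine Matrix.ext_iff_mulVec.mpr fun y => ?_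
    rw [← Matrix.mulVec_mulVec, ← Matrix.mulVec_mulVec, ← Matrix.mulVec_mulVec,
      ← Matrix.mulVec_mulVec, hexact]
    rw [Matrix.mulVec_mulVec, Matrix.mulVec_mulVec, ← hπc, Matrix.mul_assoc,
      hπj, Matrix.mul_zero, Matrix.zero_mulVec]
  let newMat : MvPolynomial I O →ₐ[O] Matrix (Fin n) (Fin n) O :=
    AlgHom.ofLinearMap
      { toFun := fun m => r * F₁.mat m * j
        map_add' := fun a b => by rw [map_add, Matrix.mul_add, Matrix.add_mul]
        map_smul' := fun c a => by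
          rw [map_smul, RingHom.id_apply, Matrix.mul_smul, Matrix.smul_mul] }
      (show r * F₁.mat 1 * j = 1 by rw [map_one, Matrix.mul_one, hrj])
      fun a b => show r * F₁.mat (a * b) * j = r * F₁.mat a * j * (r * F₁.mat b * j) by
        rw [Matrix.mul_assoc (r * F₁.mat a), ← hstab, map_mul]
        simp only [Matrix.mul_assoc]
  -- `π ∘ ι`
  have hπι : ∀ c : Fin d₀ × Fin 2 → O,
      (F₀.combo fun i => (π *ᵥ (ι *ᵥ c)) (i, 0), F₀.combo fun i => (π *ᵥ (ι *ᵥ c)) (i, 1)) =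
      (((q : O) + 1) • F₀.combo (fun i => c (i, 0)) +
          heckeOp (Fact.out : q.Prime) 1 O (F₀.combo fun i => c (i, 1)),
        heckeOp (Fact.out : q.Prime) 1 O (F₀.combo fun i => c (i, 0)) +
          ((q : O) + 1) • F₀.combo (fun i => c (i, 1))) := fun c => by
    rw [← hπ, hι, piQ_iotaQ]
  refine ⟨{
    dNew := n, ι := ι, π := π, j := j, Tq := opMat F₀, Uq := opMat F₁, newMat := newMat
    combo_ι := hι, combo_π := hπ, combo_Tq := hop F₀, combo_Uq := hop F₁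
    π_surjective := ⟨s, hπs⟩, ι_split := ⟨_, hιs⟩, j_split := ⟨r, hrj⟩, π_j := hπj
    exact := fun x hx => ⟨_, hexact x hx⟩
    ι_comm := hιc, π_comm := hπc, j_comm := hstab, Tq_comm := hopc F₀, Uq_comm := hopc F₁
    Uq_sq := ?_, π_ι := ?_, π_ι_ne_zero := ?_ }⟩
  · refine Matrix.ext_iff_mulVec.mpr fun y => F₁.inj ?_
    show F₁.combo _ = F₁.combo _
    rw [← Matrix.mulVec_mulVec, ← Matrix.mulVec_mulVec, hop, hop]
    refine hecke_sq_of_piQ_eq_zero hqN ?_
    rw [hπ, Matrix.mulVec_mulVec, hπj, Matrix.zero_mulVec]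
    simp only [Pi.zero_apply]
    rw [show (fun _ : Fin d₀ => (0 : O)) = 0 from rfl, map_zero, Prod.mk_eq_zero]
    exact ⟨rfl, rfl⟩
  · refine Matrix.ext_iff_mulVec.mpr fun c => funext fun a => ?_
    obtain ⟨i, b⟩ := a
    have hb : ∀ b : Fin 2, (fun i => ((Matrix.of fun a b : Fin d₀ × Fin 2 =>
        eMat ((q : O) + 1) (opMat F₀) a.2 b.2 a.1 b.1) *ᵥ c) (i, b)) =
        eMat ((q : O) + 1) (opMat F₀) b 0 *ᵥ (fun i => c (i, 0)) +
          eMat ((q : O) + 1) (opMat F₀) b 1 *ᵥ (fun i => c (i, 1)) := fun b => by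
      funext i
      simp [Matrix.mulVec, dotProduct, Fintype.sum_prod_type, Fin.sum_univ_two,
        Finset.sum_add_distrib]
    obtain ⟨e0, e1⟩ := Prod.mk.injEq _ _ _ _ ▸ hπι c
    rw [← Matrix.mulVec_mulVec]
    fin_cases b
    · exact congrFun (F₀.inj (e0.trans (show _ = F₀.combo (fun i => ((Matrix.of fun a b :
          Fin d₀ × Fin 2 => eMat ((q : O) + 1) (opMat F₀) a.2 b.2 a.1 b.1) *ᵥ c) (i, 0)) by
        rw [hb 0, map_add]
        simp [eMat, Matrix.smul_mulVec, hop]))) i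
    · exact congrFun (F₀.inj (e1.trans (show _ = F₀.combo (fun i => ((Matrix.of fun a b :
          Fin d₀ × Fin 2 => eMat ((q : O) + 1) (opMat F₀) a.2 b.2 a.1 b.1) *ᵥ c) (i, 1)) by
        rw [hb 1, map_add]
        simp [eMat, Matrix.smul_mulVec, hop]))) i
  · rw [Ne, ← Matrix.exists_mulVec_eq_zero_iff]
    rintro ⟨c, hc0, hc⟩
    rw [← Matrix.mulVec_mulVec] at hc
    have e := hπι c
    simp only [hc, Pi.zero_apply, Prod.mk.injEq] at e
    rw [show (fun _ : Fin d₀ => (0 : O)) = 0 from rfl, map_zero] at e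
    obtain ⟨e0, e1⟩ := e
    set x := F₀.combo fun i => c (i, 0) with hxd
    set y := F₀.combo fun i => c (i, 1) with hyd
    have hx : x = 0 := heckeOp_sq_injective pr hqN h (F₀.combo_mem _) (by
      rw [eq_neg_of_add_eq_zero_left e1.symm, map_neg, map_smul,
        eq_neg_of_add_eq_zero_right e0.symm, smul_neg, neg_neg, smul_smul, sq])
    have hy : y = 0 := heckeOp_sq_injective pr hqN h (F₀.combo_mem _) (by
      rw [eq_neg_of_add_eq_zero_right e0.symm, map_neg, map_smul,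
        eq_neg_of_add_eq_zero_left e1.symm, smul_neg, neg_neg, smul_smul, sq])
    refine hc0 (funext fun a => ?_)
    obtain ⟨i, b⟩ := a
    fin_cases b
    · exact congrFun (F₀.inj (hx.trans (map_zero F₀.combo).symm)) i
    · exact congrFun (F₀.inj (hy.trans (map_zero F₀.combo).symm)) i

end FLTAgent.Lower.Lift.HopQ
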