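import Fermat.Agent.Lower.Lift.HopQ.Maps
import Fermat.Agent.Lower.Levels.Free
import Fermat.Agent.Lower.Levels.Parabolic
import Fermat.Agent.Ihara.Lift
import Fermat.Agent.Local.Bound

/-!
# Ihara's lemma on the non-Eisenstein parts

At an index with non-Eisenstein residual eigenvalue (`EisAway`): `π` is onto on the parts
(`piQ_surjective`, dual form of Ihara's lemma), `ι` is saturated (`iotaQ_saturated`, Ihara's
lemma mod the maximal ideal), and `T_q ^ 2 - (q + 1) ^ 2` is injective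
(`heckeOp_sq_injective`).
-/

set_option autoImplicit false
set_option linter.unusedSectionVars false

noncomputable section

open CongruenceSubgroup
open scoped MatrixGroups

namespace FLTAgent.Lower.Lift.HopQ

open FLTAgent.Lower.Levels
open IsLocalRing (maximalIdeal)

/-- An index whose residual eigenvalue is not Eisenstein, at a prime `≡ 1 (mod N)`. -/
structure EisAway (N q : ℕ) {k : Type} [Field k] {ι : Type}
    (pr : ι → Nat.Primes) (θ : ι → k) (i₀ : ι) : Prop where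
  ne_two : (pr i₀ : ℕ) ≠ 2
  not_dvd : ¬ (pr i₀ : ℕ) ∣ N * q
  cong : N ∣ (pr i₀ : ℕ) - 1
  ne_eis : θ i₀ ≠ ((pr i₀ : ℕ) : k) + 1

theorem EisAway.not_dvd_left {N q : ℕ} {k : Type} [Field k] {ι : Type}
    {pr : ι → Nat.Primes} {θ : ι → k} {i₀ : ι} (h : EisAway N q pr θ i₀) :
    ¬ (pr i₀ : ℕ) ∣ N := fun h' => h.not_dvd (h'.mul_right q)

/-- A non-Eisenstein prime `≡ 1 (mod N q)` is away from `N q` and odd. -/
theorem exists_eisAway {N q : ℕ} [NeZero N] [Fact q.Prime] {k : Type} [Field k] {ι : Type}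
    {pr : ι → Nat.Primes} {θ : ι → k}
    (h : ∃ i, N * q ∣ (pr i : ℕ) - 1 ∧ θ i ≠ ((pr i : ℕ) : k) + 1) :
    ∃ i, EisAway N q pr θ i := by
  obtain ⟨i, hi, hne⟩ := h
  have h2 := (pr i).2.two_le
  have hq : 2 ≤ N * q :=
    (Fact.out : q.Prime).two_le.trans (Nat.le_mul_of_pos_left q (NeZero.pos N))
  refine ⟨i, fun e => ?_, fun hd => ?_, (dvd_mul_right N q).trans hi, hne⟩
  · rw [e] at hi
    have := Nat.le_of_dvd (by norm_num) hi
    omega
  · have := Nat.le_of_dvd (by omega) (hd.trans hi)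
    omega

/-- `T_q ^ 2 - (q + 1) ^ 2` is injective on parabolic homomorphisms. -/
theorem heckeH_sq_injective {N q : ℕ} [NeZero N] [Fact q.Prime] {O : Type} [CommRing O]
    [IsDomain O] [CharZero O] (hqN : ¬ q ∣ N) {φ : Period.H N O O}
    (h0 : HeckeH.heckeH N (Fact.out : q.Prime) O O
        (HeckeH.heckeH N (Fact.out : q.Prime) O O φ) = ((q : O) + 1) ^ 2 • φ) : φ = 0 := by
  set T := HeckeH.heckeH N (Fact.out : q.Prime) O O
  have hT : T = HeckeH.matAct N O O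
      (HeckeH.heckeMatHom N (Reps.heckeTOf (Fact.out : q.Prime) hqN)) :=
    (HeckeH.heckeEnd_T N (Fact.out : q.Prime) hqN (Set.notMem_empty q) O O).symm
  have hinj : ∀ c : ℤ, |c| = (q : ℤ) + 1 → ∀ ψ : Period.H N O O, T ψ = (c : O) • ψ → ψ = 0 := by
    intro c hc ψ hψ
    set M := HeckeH.heckeMatHom N (Reps.heckeTOf (Fact.out : q.Prime) hqN)
    have hdet := Local.det_heckeT_sub_ne_zero (Fact.out : q.Prime) hqN (HeckeH.heckeMatHom N)
      (HeckeH.heckeMatHom_injective N) hc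
    have hdet' : ((M - (c : Matrix _ _ ℤ)).map (Int.castRingHom O)).det ≠ 0 := by
      rw [← RingHom.mapMatrix_apply, ← RingHom.map_det, eq_intCast]
      exact_mod_cast hdet
    refine (Period.evalEquiv N O O).map_eq_zero_iff.mp
      (Matrix.eq_zero_of_mulVec_eq_zero hdet' (funext fun i => ?_))
    have e := congrArg (fun χ => Period.evalEquiv N O O χ i) hψ
    rw [hT] at e
    simp only [HeckeH.evalEquiv_matAct, map_smul, Pi.smul_apply, smul_eq_mul, zsmul_eq_mul] at e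
    simp only [Matrix.mulVec, dotProduct, Matrix.map_apply, Matrix.sub_apply, map_sub,
      eq_intCast, sub_mul, Finset.sum_sub_distrib, Pi.zero_apply, e, Matrix.intCast_apply]
    simp [apply_ite (fun z : ℤ => (z : O))]
  let ψ := T φ + ((q : O) + 1) • φ
  have hψ : ψ = 0 := by
    refine hinj ((q : ℤ) + 1) (abs_of_nonneg (by positivity)) ψ ?_
    simp only [ψ, map_add, map_smul, h0, smul_add, smul_smul, Int.cast_add, Int.cast_natCast,
      Int.cast_one, ← sq]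
    abel
  refine hinj (-((q : ℤ) + 1)) (by rw [abs_neg, abs_of_nonneg (by positivity)]) φ ?_
  rw [Int.cast_neg, Int.cast_add, Int.cast_natCast, Int.cast_one]
  exact (eq_neg_of_add_eq_zero_left hψ).trans (_root_.neg_smul _ φ).symm

variable {N q : ℕ} [NeZero N] [Fact q.Prime]
variable {O : Type} [CommRing O] {ι : Type} (pr : ι → Nat.Primes) (i₀ : ι)

/-- `T_ℓ - (ℓ + 1)` as a polynomial in the family. -/
def eisVar (O : Type) [CommRing O] : MvPolynomial ι O :=
  MvPolynomial.X i₀ - MvPolynomial.C (((pr i₀ : ℕ) : O) + 1)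

theorem famAct_eisVar (x : H1 O O (tchi N O)) :
    famAct 1 pr O (eisVar pr i₀ O) x =
      heckeOp (pr i₀).2 1 O x - (((pr i₀ : ℕ) : O) + 1) • x := by
  rw [eisVar, map_sub, LinearMap.sub_apply, famAct_X, MvPolynomial.algHom_C,
    Module.algebraMap_end_apply]

/-- A parabolic homomorphism as a class. -/
def ofH (φ : Period.H N O O) : H1 O O (tchi N O) :=
  (h1Triv N O O).symm (φ : Additive (Gamma0 N) →+ O)

theorem h1Triv_ofH (φ : Period.H N O O) :
    h1Triv N O O (ofH φ) = (φ : Additive (Gamma0 N) →+ O) :=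
  LinearEquiv.apply_symm_apply _ _

theorem ofH_mk {x : H1 O O (tchi N O)} (hx : h1Triv N O O x ∈ Period.H N O O) :
    ofH (⟨_, hx⟩ : Period.H N O O) = x :=
  LinearEquiv.symm_apply_apply _ _

theorem heckeOp_ofH {ℓ : ℕ} (hℓ : ℓ.Prime) (φ : Period.H N O O) :
    heckeOp hℓ 1 O (ofH φ) = ofH (HeckeH.heckeH N hℓ O O φ) := by
  refine (h1Triv N O O).injective ?_
  rw [h1Triv_heckeOp, h1Triv_ofH, h1Triv_ofH, HeckeH.coe_heckeH]

theorem ofH_smul (c : O) (φ : Period.H N O O) : ofH (c • φ) = c • ofH φ := by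
  refine (h1Triv N O O).injective ?_
  rw [map_smul, h1Triv_ofH, h1Triv_ofH, Submodule.coe_smul]

theorem ofH_sub (φ ψ : Period.H N O O) : ofH (φ - ψ) = ofH φ - ofH ψ := by
  refine (h1Triv N O O).injective ?_
  rw [map_sub, h1Triv_ofH, h1Triv_ofH, h1Triv_ofH, Submodule.coe_sub]

theorem ofH_add (φ ψ : Period.H N O O) : ofH (φ + ψ) = ofH φ + ofH ψ := by
  refine (h1Triv N O O).injective ?_
  rw [map_add, h1Triv_ofH, h1Triv_ofH, h1Triv_ofH, Submodule.coe_add]

variable (hℓN : ¬ (pr i₀ : ℕ) ∣ N)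

theorem famAct_eisVar_ofH (φ : Period.H N O O) :
    famAct 1 pr O (eisVar pr i₀ O) (ofH φ) =
      ofH (HeckeH.heckeEnd N O O (Ihara.eisT N (pr i₀).2 hℓN) φ) := by
  rw [famAct_eisVar, heckeOp_ofH, Ihara.heckeEnd_eisT, ofH_sub, ← Nat.cast_smul_eq_nsmul O,
    ofH_smul]
  push_cast
  rfl

theorem famAct_eisPoly_ofH (P : Polynomial ℤ) (φ : Period.H N O O) :
    famAct 1 pr O (Polynomial.aeval (eisVar pr i₀ O * eisVar pr i₀ O) P) (ofH φ) =
      ofH (HeckeH.heckeEnd N O O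
        (Polynomial.aeval (Ihara.eisT N (pr i₀).2 hℓN * Ihara.eisT N (pr i₀).2 hℓN) P) φ) := by
  induction P using Polynomial.induction_on' with
  | add P Q hP hQ =>
    simp only [map_add, LinearMap.add_apply, hP, hQ, ofH_add]
  | monomial n z =>
    have hpow : ∀ ψ : Period.H N O O,
        famAct 1 pr O ((eisVar pr i₀ O * eisVar pr i₀ O) ^ n) (ofH ψ) =
          ofH (HeckeH.heckeEnd N O O
            ((Ihara.eisT N (pr i₀).2 hℓN * Ihara.eisT N (pr i₀).2 hℓN) ^ n) ψ) := by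
      induction n with
      | zero => intro ψ; simp only [pow_zero, map_one, Module.End.one_apply]
      | succ n ih =>
        intro ψ
        simp only [pow_succ', map_mul, Module.End.mul_apply, ih,
          famAct_eisVar_ofH pr i₀ hℓN]
    simp only [map_mul, map_pow] at hpow
    simp only [← Polynomial.C_mul_X_pow_eq_monomial, map_mul, map_pow,
      Polynomial.aeval_X, eq_intCast, Module.End.mul_apply, map_intCast, hpow,
      Module.End.intCast_apply]
    rw [← Int.cast_smul_eq_zsmul O, ← ofH_smul, ← Int.cast_smul_eq_zsmul O]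

variable [IsDomain O] [CharZero O]

include hℓN in
/-- Integral pairs in the image give pairs over `O` in the image. -/
theorem mem_range_betaMap (hqN : ¬ q ∣ N) (P : Polynomial ℤ)
    (hP : ∀ y : Period.H N ℤ ℤ × Period.H N ℤ ℤ,
      (HeckeH.heckeEnd N ℤ ℤ
          (Polynomial.aeval (Ihara.eisT N (pr i₀).2 hℓN * Ihara.eisT N (pr i₀).2 hℓN) P) y.1,
        HeckeH.heckeEnd N ℤ ℤ
          (Polynomial.aeval (Ihara.eisT N (pr i₀).2 hℓN * Ihara.eisT N (pr i₀).2 hℓN) P) y.2) ∈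
          LinearMap.range (Ihara.betaMap ℤ ℤ hqN))
    (φ₁ φ₂ : Period.H N O O) :
    (HeckeH.heckeEnd N O O
        (Polynomial.aeval (Ihara.eisT N (pr i₀).2 hℓN * Ihara.eisT N (pr i₀).2 hℓN) P) φ₁,
      HeckeH.heckeEnd N O O
        (Polynomial.aeval (Ihara.eisT N (pr i₀).2 hℓN * Ihara.eisT N (pr i₀).2 hℓN) P) φ₂) ∈
        LinearMap.range (Ihara.betaMap O O hqN) := by
  set t := Polynomial.aeval (Ihara.eisT N (pr i₀).2 hℓN * Ihara.eisT N (pr i₀).2 hℓN) P
  set G := HeckeH.heckeEnd N O O t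
  set S := LinearMap.range (Ihara.betaMap O O hqN) with hS
  have hcast : ∀ a b : Period.H N ℤ ℤ,
      (G (Period.castH N O a), G (Period.castH N O b)) ∈ S := fun a b => by
    obtain ⟨ζ, hζ⟩ := hP (a, b)
    refine ⟨Period.castH (N * q) O ζ, ?_⟩
    rw [← Ihara.castH_betaMap, hζ]
    simp only [G, HeckeH.heckeEnd_castH]
  have h1 : S.mkQ ∘ₗ LinearMap.inl O _ _ ∘ₗ G = 0 := Ihara.linearMap_ext_castH fun a => by
    have h := hcast a 0
    rw [map_zero, map_zero] at h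
    exact (Submodule.Quotient.mk_eq_zero S).mpr h
  have h2 : S.mkQ ∘ₗ LinearMap.inr O _ _ ∘ₗ G = 0 := Ihara.linearMap_ext_castH fun b => by
    have h := hcast 0 b
    rw [map_zero, map_zero] at h
    exact (Submodule.Quotient.mk_eq_zero S).mpr h
  have e1 : (G φ₁, (0 : Period.H N O O)) ∈ S :=
    (Submodule.Quotient.mk_eq_zero S).mp (LinearMap.congr_fun h1 φ₁)
  have e2 : ((0 : Period.H N O O), G φ₂) ∈ S :=
    (Submodule.Quotient.mk_eq_zero S).mp (LinearMap.congr_fun h2 φ₂)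
  simpa using add_mem e1 e2

variable {k : Type} [Field k] {σ : O →+* k} (hσ : Function.Surjective σ) {θ : ι → k} {pr i₀}

include hσ in
theorem isMax (θ : ι → k) : (eigIdeal σ θ).IsMaximal :=
  isMaximal_eigIdeal hσ θ

theorem isPr (θ : ι → k) : (eigIdeal σ θ).IsPrime := RingHom.ker_isPrime _

theorem eisVar_not_mem (h : EisAway N q pr θ i₀) :
    eisVar pr i₀ O ∉ eigIdeal σ θ := by
  rw [mem_eigIdeal, eisVar, map_sub, MvPolynomial.eval₂Hom_X', MvPolynomial.eval₂Hom_C, map_add,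
    map_natCast, map_one, sub_eq_zero]
  exact h.ne_eis

theorem eisVar_sq_not_mem (h : EisAway N q pr θ i₀) :
    eisVar pr i₀ O * eisVar pr i₀ O ∉ eigIdeal σ θ := fun hm =>
  ((isPr θ).mem_or_mem hm).elim (eisVar_not_mem h) (eisVar_not_mem h)

theorem eisVar_parabolic (h : EisAway N q pr θ i₀) (x : H1 O O (tchi N O)) :
    h1Triv N O O (famAct 1 pr O (eisVar pr i₀ O) x) ∈ Period.H N O O := by
  rw [famAct_eisVar]
  exact heckeOp_sub_mem_H (pr i₀).2 h.cong x

theorem exists_ofH_of_mem (h : EisAway N q pr θ i₀) {x : H1 O O (tchi N O)}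
    (hx : x ∈ h1Part 1 pr σ θ O) : ∃ φ : Period.H N O O, ofH φ = x := by
  obtain ⟨y, rfl⟩ := mem_part.mp hx _ (eisVar_not_mem h)
  exact ⟨_, ofH_mk (eisVar_parabolic h y)⟩

variable {p : ℕ} [Fact p.Prime]

/-- **Ihara, dual form.** A polynomial outside the ideal takes every pair into the image of `π`. -/
theorem exists_piQ_poly (hp : (p : k) = 0) (hqN : ¬ q ∣ N)
    (h : EisAway N q pr θ i₀) :
    ∃ s₀ : MvPolynomial ι O, s₀ ∉ eigIdeal σ θ ∧
      ∀ y₁ y₂ : H1 O O (tchi N O), ∃ z, piQ hqN O z =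
        (famAct 1 pr O s₀ y₁, famAct 1 pr O s₀ y₂) := by
  obtain ⟨P, -, hmap, hP⟩ :=
    Ihara.exists_eisPoly (p := p) hqN (pr i₀).2 h.ne_two h.not_dvd_left h.not_dvd
  set u := eisVar pr i₀ O
  refine ⟨Polynomial.aeval (u * u) P * u, fun hm => ?_, fun y₁ y₂ => ?_⟩
  · rcases (isPr θ).mem_or_mem hm with hm | hm
    · have : CharP k p := (CharP.charP_iff_prime_eq_zero Fact.out).mpr hp
      rw [mem_eigIdeal] at hm
      have e := (Polynomial.aeval_algHom_apply
        (MvPolynomial.eval₂Hom σ θ).toIntAlgHom (u * u) P).trans hm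
      rw [Polynomial.aeval_def, RingHom.toIntAlgHom_apply] at e
      have e2 : Polynomial.eval₂
          ((ZMod.castHom dvd_rfl (k)).comp (Int.castRingHom (ZMod p)))
          (MvPolynomial.eval₂Hom σ θ (u * u)) P = 0 :=
        (congrArg (fun f => Polynomial.eval₂ f _ P) (Subsingleton.elim _ _)).trans e
      rw [← Polynomial.eval₂_map, hmap, Polynomial.eval₂_X_pow, pow_eq_zero_iff'] at e2
      exact eisVar_sq_not_mem h (mem_eigIdeal.mpr e2.1)
    · exact eisVar_not_mem h hm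
  · obtain ⟨ζ, hζ⟩ := mem_range_betaMap pr i₀ h.not_dvd_left hqN P hP
      ⟨_, eisVar_parabolic h y₁⟩ ⟨_, eisVar_parabolic h y₂⟩
    rw [Ihara.betaMap_apply, Prod.mk.injEq] at hζ
    refine ⟨ofH ζ, ?_⟩
    rw [piQ_apply, map_mul, Module.End.mul_apply, Module.End.mul_apply,
      ← ofH_mk (eisVar_parabolic h y₁), ← ofH_mk (eisVar_parabolic h y₂),
      famAct_eisPoly_ofH pr i₀ h.not_dvd_left, famAct_eisPoly_ofH pr i₀ h.not_dvd_left,
      ← hζ.1, ← hζ.2, Prod.mk.injEq]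
    constructor <;> refine (h1Triv N O O).injective ?_
    · rw [h1Triv_cor, h1Triv_ofH, h1Triv_ofH, Degen.coe_corH]
    · rw [h1Triv_cor, h1Triv_w, h1Triv_ofH, h1Triv_ofH, Degen.coe_corH]
      rfl

variable (pr)

section Complete

variable [IsLocalRing O] [IsNoetherianRing O] [IsAdicComplete (maximalIdeal O) O]
  [Module.Finite O (H1 O O (tchi (N * q) O))] (hpr : ∀ i, (pr i : ℕ) ≠ q)

include hσ hpr in
/-- **`π` is onto on the parts.** -/
theorem piQ_surjective (hp : (p : k) = 0) (hqN : ¬ q ∣ N)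
    (h : EisAway N q pr θ i₀) {y₁ y₂ : H1 O O (tchi N O)}
    (hy₁ : y₁ ∈ h1Part 1 pr σ θ O) (hy₂ : y₂ ∈ h1Part 1 pr σ θ O) :
    ∃ z ∈ h1Part 1 pr σ θ O, piQ hqN O z = (y₁, y₂) := by
  have := isMax hσ θ
  obtain ⟨e, he⟩ := exists_isProj (famAct (1 : (ZMod (N * q))ˣ →* Oˣ) pr O)
    (eigIdeal σ θ)
  obtain ⟨s₀, hs₀, hlift⟩ := exists_piQ_poly (σ := σ) hp hqN h
  have hne : e * s₀ ∉ eigIdeal σ θ := fun hm =>
    ((isPr θ).mem_or_mem hm).elim
      (he.not_mem (isMax hσ θ).ne_top) hs₀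
  obtain ⟨w₁, rfl⟩ := mem_part.mp hy₁ _ hne
  obtain ⟨w₂, rfl⟩ := mem_part.mp hy₂ _ hne
  obtain ⟨z, hz⟩ := hlift w₁ w₂
  refine ⟨famAct 1 pr O e z, he.mem_part (isMax hσ θ).ne_top z, ?_⟩
  simp only [piQ_famAct hqN pr hpr, hz, map_mul, Module.End.mul_apply]

end Complete

/-- Reduction of parabolic homomorphisms. -/
def redH (σ : O →+* k) {M : ℕ} (φ : Period.H M O O) : Period.H M (k) (k) :=
  ⟨σ.toAddMonoidHom.comp (φ : Additive (Gamma0 M) →+ O),
    ⟨fun γ hγ => by simp [Period.H_parabolic φ hγ],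
      fun γ hγ => by simp [Period.H_finOrder φ hγ]⟩⟩

theorem redH_apply {M : ℕ} (φ : Period.H M O O) (γ : Additive (Gamma0 M)) :
    (redH σ φ : Additive (Gamma0 M) →+ k) γ =
      σ ((φ : Additive (Gamma0 M) →+ O) γ) := rfl

theorem redH_eis {ℓ : ℕ} (hℓ : ℓ.Prime) (hℓN : ¬ ℓ ∣ N) (φ : Period.H N O O) :
    redH σ (HeckeH.heckeEnd N O O (Ihara.eisT N hℓ hℓN) φ) =
      Ihara.eisOp N hℓ (k) (redH σ φ) := by
  refine Subtype.ext (AddMonoidHom.ext fun γ => ?_)
  obtain ⟨γ, rfl⟩ := Additive.ofMul.surjective γ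
  rw [redH_apply, Ihara.heckeEnd_eisT, Ihara.eisOp_apply, Submodule.coe_sub, Submodule.coe_sub,
    AddMonoidHom.sub_apply, AddMonoidHom.sub_apply, map_sub, HeckeH.coe_heckeH, HeckeH.coe_heckeH,
    HeckeH.Reps.transfer_apply, HeckeH.Reps.transfer_apply, map_sum, Submodule.coe_smul,
    AddMonoidHom.coe_smul, Pi.smul_apply, smul_eq_mul]
  simp only [redH_apply]
  congr 1
  rw [Submodule.coe_smul_of_tower, AddMonoidHom.coe_smul, Pi.smul_apply, nsmul_eq_mul, map_mul,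
    map_natCast]

section Saturated

variable [IsLocalRing O] [IsNoetherianRing O] [IsAdicComplete (maximalIdeal O) O]
  [Module.Finite O (H1 O O (tchi N O))]

include hσ in
/-- **`ι` is saturated on the parts.** -/
theorem iotaQ_saturated (hp : (p : k) = 0) (hqN : ¬ q ∣ N)
    (h : EisAway N q pr θ i₀) {ϖ : O} (hϖ : RingHom.ker σ = Ideal.span {ϖ}) (hϖ0 : ϖ ≠ 0)
    {x₁ x₂ : H1 O O (tchi N O)} (hx₁ : x₁ ∈ h1Part 1 pr σ θ O)
    (hx₂ : x₂ ∈ h1Part 1 pr σ θ O) {w : H1 O O (tchi (N * q) O)}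
    (hw : iotaQ O N q (x₁, x₂) = ϖ • w) :
    (∃ a ∈ h1Part 1 pr σ θ O, x₁ = ϖ • a) ∧
      ∃ a ∈ h1Part 1 pr σ θ O, x₂ = ϖ • a := by
  obtain ⟨φ₁, h₁⟩ := exists_ofH_of_mem h hx₁
  obtain ⟨φ₂, h₂⟩ := exists_ofH_of_mem h hx₂
  have : CharP k p := (CharP.charP_iff_prime_eq_zero Fact.out).mpr hp
  have hred : σ ϖ = 0 := RingHom.mem_ker.mp (hϖ ▸ Ideal.mem_span_singleton_self ϖ)
  have hα : Ihara.alpha (q := q) (k) (k) (redH σ φ₁, redH σ φ₂) = 0 := by
    refine Subtype.ext (AddMonoidHom.ext fun γ => ?_)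
    obtain ⟨γ, rfl⟩ := Additive.ofMul.surjective γ
    have e := DFunLike.congr_fun (congrArg (h1Triv (N * q) O O) hw) (Additive.ofMul γ)
    rw [iotaQ_apply, map_add, map_smul, h1Triv_degOne, h1Triv_degV, ← h₁, ← h₂, h1Triv_ofH,
      h1Triv_ofH, AddMonoidHom.add_apply] at e
    have e' := congrArg σ e
    rw [map_add, AddMonoidHom.coe_smul, Pi.smul_apply, smul_eq_mul, map_mul, hred, zero_mul] at e'
    exact e'
  obtain ⟨k₁, k₂⟩ :=
    Ihara.ihara_kernel hqN (cp := p) Fact.out (pr i₀).2 h.ne_two h.not_dvd hα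
  rw [← redH_eis (pr i₀).2 h.not_dvd_left, ← redH_eis (pr i₀).2 h.not_dvd_left] at k₁ k₂
  have := isMax hσ θ
  obtain ⟨e, he⟩ := exists_isProj (famAct (1 : (ZMod N)ˣ →* Oˣ) pr O)
    (eigIdeal σ θ)
  obtain ⟨c, hc⟩ := he.inv _ (eisVar_sq_not_mem h)
  have key : ∀ {φ : Period.H N O O} {x : H1 O O (tchi N O)}, ofH φ = x →
      x ∈ h1Part 1 pr σ θ O →
      redH σ (HeckeH.heckeEnd N O O (Ihara.eisT N (pr i₀).2 h.not_dvd_left)
        (HeckeH.heckeEnd N O O (Ihara.eisT N (pr i₀).2 h.not_dvd_left) φ)) = 0 →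
      ∃ a ∈ h1Part 1 pr σ θ O, x = ϖ • a := by
    intro φ x hφ hx hk
    set ψ := HeckeH.heckeEnd N O O (Ihara.eisT N (pr i₀).2 h.not_dvd_left)
      (HeckeH.heckeEnd N O O (Ihara.eisT N (pr i₀).2 h.not_dvd_left) φ) with hψ
    have hdiv : ∀ γ, ∃ a, (ψ : Additive (Gamma0 N) →+ O) γ = ϖ * a := fun γ => by
      refine dvd_def.mp (Ideal.mem_span_singleton.mp (hϖ ▸ RingHom.mem_ker.mpr ?_))
      exact (redH_apply (σ := σ) ψ γ).symm.trans (by rw [hk]; rfl)
    choose f hf using hdiv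
    let g : Additive (Gamma0 N) →+ O :=
      { toFun := f
        map_zero' := mul_left_cancel₀ hϖ0 (by rw [← hf, map_zero, mul_zero])
        map_add' := fun a b => mul_left_cancel₀ hϖ0 (by rw [mul_add, ← hf, ← hf, ← hf, map_add]) }
    have hψg : ofH ψ = ϖ • (h1Triv N O O).symm g := by
      rw [← map_smul, ofH]
      exact congrArg _ (AddMonoidHom.ext hf)
    refine ⟨famAct 1 pr O (c * e) ((h1Triv N O O).symm g), ?_, ?_⟩
    · rw [mul_comm, map_mul, Module.End.mul_apply]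
      exact he.mem_part (isMax hσ θ).ne_top _
    · rw [← map_smul, ← hψg, hψ, ← famAct_eisVar_ofH pr i₀ h.not_dvd_left,
        ← famAct_eisVar_ofH pr i₀ h.not_dvd_left, ← Module.End.mul_apply, ← Module.End.mul_apply,
        ← map_mul, ← map_mul, hφ]
      conv_lhs => rw [← he.apply_eq_self (isMax hσ θ).ne_top hx, ← hc]
      exact congrArg (fun s => famAct 1 pr O s x) (by ring)
  exact ⟨key h₁ hx₁ k₁, key h₂ hx₂ k₂⟩

end Saturated

/-- **`T_q ^ 2 - (q + 1) ^ 2` is injective on the part.** -/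
theorem heckeOp_sq_injective (hqN : ¬ q ∣ N) (h : EisAway N q pr θ i₀)
    {x : H1 O O (tchi N O)} (hx : x ∈ h1Part 1 pr σ θ O)
    (h0 : heckeOp (Fact.out : q.Prime) 1 O (heckeOp (Fact.out : q.Prime) 1 O x) =
      ((q : O) + 1) ^ 2 • x) : x = 0 := by
  obtain ⟨φ, rfl⟩ := exists_ofH_of_mem h hx
  have hφ : φ = 0 := heckeH_sq_injective hqN (Subtype.ext (by
    have := congrArg (h1Triv N O O) h0
    rwa [heckeOp_ofH, heckeOp_ofH, h1Triv_ofH, map_smul, h1Triv_ofH] at this))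
  rw [hφ, ← zero_smul O (0 : Period.H N O O), ofH_smul, zero_smul]

end FLTAgent.Lower.Lift.HopQ
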